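import Fermat.Agent.GJ.J1.Res.ResA
import Fermat.Agent.GJ.J1.Val.GaussRedData

/-!
# GATE-J / J1 / M-RES: the residue field of the Gauss valuation IS the special-fibre function field

For `ℓ ∤ N` and `A` a valuation subring of `ℚ̄` above `ℓ`, helper45's residue field
`FresBar N A ⊆ k((q))` of the Gauss valuation ring `RwBar N A` of `ℚ̄(X₀(N))` equals the function
field `modularFunctionFieldFullC k N = k(j(q^d) : d ∣ N)` of the special fibre.
`≥` is helper45's `full_le_FresBar`; `≤` is RES (`Res.res`) applied to numerator and denominator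
of a Gauss fraction.
-/

set_option autoImplicit false

noncomputable section

namespace Fermat.Agent.GJ.J1.Res

open ModularCurve Fermat.Agent.GJ.J1.Val

variable (N : ℕ) [NeZero N] {ℓ : ℕ} [Fact ℓ.Prime]
variable (A : ValuationSubring (AlgebraicClosure ℚ))

/-- the reduction of an element of the Gauss valuation ring of `ℚ̄(X₀(N))` lies in the function
field of the special fibre -/
theorem redL_mem_fullC (hℓN : ¬ ℓ ∣ N) (hA : A.LiesOverPrime ℓ) (x : RwBar N A) :
    redL A (modularFunctionFieldBar N) (hasGaussFrac_bar N A) x ∈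
      modularFunctionFieldFullC (IsLocalRing.ResidueField A) N := by
  obtain ⟨a, b, hab⟩ := (mem_Rw_iff (hGF := hasGaussFrac_bar N A)).mp x.2
  rw [redL_eq hab]
  exact div_mem (res N hℓN A hA a hab.1) (res N hℓN A hA b hab.2.1)

/-- **RES, field form**: `FresBar N A ≤ k(j(q^d) : d ∣ N)` -/
theorem FresBar_le_fullC (hℓN : ¬ ℓ ∣ N) (hA : A.LiesOverPrime ℓ) :
    FresBar N A ≤ modularFunctionFieldFullC (IsLocalRing.ResidueField A) N := by
  intro y hy
  obtain ⟨x, rfl⟩ := (mem_Fres_iff (hGF := hasGaussFrac_bar N A)).mp hy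
  exact redL_mem_fullC N A hℓN hA x

/-- **the residue field of the Gauss valuation is the special-fibre function field** -/
theorem FresBar_eq_fullC (hℓN : ¬ ℓ ∣ N) (hA : A.LiesOverPrime ℓ) :
    FresBar N A = modularFunctionFieldFullC (IsLocalRing.ResidueField A) N :=
  le_antisymm (FresBar_le_fullC N A hℓN hA) (full_le_FresBar N A)

/-- membership form for consumers: the reduction `(redDataBar N A).red x`, viewed in `k((q))`,
lies in the special-fibre function field -/
theorem coe_red_mem_fullC (hℓN : ¬ ℓ ∣ N) (hA : A.LiesOverPrime ℓ) (x : RwBar N A) :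
    (((redDataBar N A).red x : FresBar N A) : LaurentSeries (IsLocalRing.ResidueField A)) ∈
      modularFunctionFieldFullC (IsLocalRing.ResidueField A) N :=
  FresBar_le_fullC N A hℓN hA ((redDataBar N A).red x).2

end Fermat.Agent.GJ.J1.Res
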