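import Fermat.Agent.S28.CuspSeries
import Fermat.Agent.S28.CuspExpansion

/-!
# GATE-J / J1 / M-RES (R3, part 1): the series `j(ξ t^e)` determine `(e, ξ)`; separation of roots
of unity modulo the maximal ideal
-/

set_option autoImplicit false

noncomputable section

namespace Fermat.Agent.GJ.J1.Res

open ModularCurve Fermat.Agent.S28

section Series

variable (R : Type*) [CommRing R]

theorem cuspJ_coeff_neg (ξ : Rˣ) (e : ℕ) [NeZero e] :
    (cuspJ R ξ e).coeff (-(e : ℤ)) = ((ξ⁻¹ : Rˣ) : R) := by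
  have h1 : (-(e : ℤ)) = (e : ℤ) * (-1) := by ring
  rw [cuspJ, cuspS, RingHom.comp_apply, h1, qExpand_coeff_mul, scaleHom_coeff,
    coeff_jqModC_neg_one, mul_one, zpow_neg_one]

theorem cuspJ_coeff_neg_of_lt (ξ : Rˣ) (e e' : ℕ) [NeZero e] (h : e < e') :
    (cuspJ R ξ e).coeff (-(e' : ℤ)) = 0 := by
  rw [cuspJ, cuspS, RingHom.comp_apply]
  by_cases hdvd : (e : ℤ) ∣ -(e' : ℤ)
  · obtain ⟨m, hm⟩ := hdvd
    rw [hm, qExpand_coeff_mul, scaleHom_coeff]
    have he : (0 : ℤ) < e := by exact_mod_cast Nat.pos_of_ne_zero (NeZero.ne e)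
    have hm1 : m < -1 := by
      by_contra hcon
      push Not at hcon
      have h2 : (e : ℤ) * (-1) ≤ (e : ℤ) * m := mul_le_mul_of_nonneg_left hcon he.le
      have h3 : (e : ℤ) < e' := by exact_mod_cast h
      linarith
    rw [coeff_jqModC_of_lt R hm1, mul_zero]
  · exact qExpand_coeff_of_not_dvd e _ hdvd

variable {R}

/-- the series `j(ξ t^e)` determines `e` and `ξ` -/
theorem cuspJ_pair_injective [Nontrivial R] {ξ ξ' : Rˣ} {e e' : ℕ} [NeZero e] [NeZero e']
    (h : cuspJ R ξ e = cuspJ R ξ' e') : e = e' ∧ ξ = ξ' := by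
  have hne : ∀ u : Rˣ, ((u⁻¹ : Rˣ) : R) ≠ 0 := fun u => (u⁻¹).ne_zero
  rcases lt_trichotomy e e' with hlt | heq | hgt
  · exfalso
    have h1 := congrArg (fun s => HahnSeries.coeff s (-(e' : ℤ))) h
    simp only [cuspJ_coeff_neg, cuspJ_coeff_neg_of_lt R ξ e e' hlt] at h1
    exact hne ξ' h1.symm
  · subst heq
    refine ⟨rfl, ?_⟩
    have h1 := congrArg (fun s => HahnSeries.coeff s (-(e : ℤ))) h
    simp only [cuspJ_coeff_neg] at h1
    have h2 : (ξ⁻¹ : Rˣ) = ξ'⁻¹ := Units.ext h1
    exact inv_injective h2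
  · exfalso
    have h1 := congrArg (fun s => HahnSeries.coeff s (-(e : ℤ))) h
    simp only [cuspJ_coeff_neg, cuspJ_coeff_neg_of_lt R ξ' e' e hgt] at h1
    exact hne ξ h1

end Series

section Roots

variable {O : Type*} [CommRing O] [IsLocalRing O]

/-- roots of unity of order invertible in a local ring are separated by the residue field -/
theorem unit_eq_of_residue_eq (u v : Oˣ) (D : ℕ) (hD : IsUnit ((D : ℕ) : O)) (hu : u ^ D = 1)
    (hv : v ^ D = 1) (h : IsLocalRing.residue O (u : O) = IsLocalRing.residue O (v : O)) :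
    u = v := by
  set z : Oˣ := u * v⁻¹ with hz
  have hzD : (z : O) ^ D = 1 := by
    have : z ^ D = 1 := by rw [hz, mul_pow, inv_pow, hu, hv, inv_one, mul_one]
    rw [← Units.val_pow_eq_pow_val, this, Units.val_one]
  have hzres : IsLocalRing.residue O (z : O) = 1 := by
    have h1 : (z : O) * (v : O) = (u : O) := by
      rw [hz, Units.val_mul, mul_assoc, Units.inv_mul, mul_one]
    have h2 := congrArg (IsLocalRing.residue O) h1
    rw [map_mul, h] at h2
    have hv0 : IsLocalRing.residue O (v : O) ≠ 0 :=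
      (IsLocalRing.residue_ne_zero_iff_isUnit _).mpr v.isUnit
    exact mul_right_cancel₀ hv0 (by rw [h2, one_mul])
  have hgeom : (∑ i ∈ Finset.range D, (z : O) ^ i) * ((z : O) - 1) = 0 := by
    rw [geom_sum_mul, hzD, sub_self]
  have hsum : IsUnit (∑ i ∈ Finset.range D, (z : O) ^ i) := by
    rw [← IsLocalRing.residue_ne_zero_iff_isUnit, map_sum]
    simp only [map_pow, hzres, one_pow, Finset.sum_const, Finset.card_range, nsmul_eq_mul, mul_one]
    have := (IsLocalRing.residue_ne_zero_iff_isUnit _).mpr hD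
    rwa [map_natCast] at this
  have hz1 : (z : O) = 1 := by
    have := hsum.mul_right_eq_zero.mp hgeom
    exact sub_eq_zero.mp this
  have : z = 1 := Units.ext hz1
  rw [hz, mul_inv_eq_one] at this
  exact this

end Roots

section Complex

/-- `B ↦ exp(2πi B/D)` is injective on `[0, D)` -/
theorem rootExp_injOn {B B' D : ℤ} (hD : 0 < D) (hB : 0 ≤ B) (hBD : B < D) (hB' : 0 ≤ B')
    (hBD' : B' < D) (h : CuspExp.rootExp B D = CuspExp.rootExp B' D) : B = B' := by
  rw [CuspExp.rootExp, CuspExp.rootExp, Complex.exp_eq_exp_iff_exists_int] at h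
  obtain ⟨n, hn⟩ := h
  have hD0 : (D : ℂ) ≠ 0 := by exact_mod_cast hD.ne'
  have hpi : (2 * (Real.pi : ℂ) * Complex.I) ≠ 0 := by
    simp [Real.pi_ne_zero, Complex.I_ne_zero]
  have h1 : (B : ℂ) = B' + n * D := by
    field_simp at hn
    rw [hn]
    ring
  have h3 : B = B' + n * D := by exact_mod_cast h1
  have hn0 : n = 0 := by
    by_contra hne
    rcases lt_or_gt_of_ne hne with hneg | hpos
    · have : n * D ≤ -1 * D := mul_le_mul_of_nonneg_right (by omega) hD.le
      linarith
    · have : 1 * D ≤ n * D := mul_le_mul_of_nonneg_right (by omega) hD.le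
      linarith
  rw [hn0, zero_mul, add_zero] at h3
  exact h3

end Complex

end Fermat.Agent.GJ.J1.Res
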