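import Fermat.Agent.S28.Assemble
import Fermat.Agent.S28.GaussRing
import Fermat.Agent.GJ.J1.Res.DistSeries

/-!
# GATE-J / J1 / M-RES (R3): the cusp expansions of `j(q^N)` are pairwise distinct modulo the
maximal ideal

For the cusp datum `S28.Assemble.cuspDatumOfAnalytic N φ hζ hD AF` over a DVR `O` (in which the
divisors of `N` are units), the expansions `σ i (j(q^N)) = j(ξ_i t^{e_i})` have pairwise differences
which are units of the Gauss ring.
-/

set_option autoImplicit false
set_option linter.unusedSectionVars false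

noncomputable section

namespace Fermat.Agent.GJ.J1.Res

open ModularCurve Fermat.Agent.S28 Fermat.Agent.S28.Assemble Fermat.Agent.S28.CuspExp
open Matrix MatrixGroups CongruenceSubgroup

section Coset

variable (N : ℕ) [NeZero N]

theorem sl2_mul_inv_one_zero (g g' : SL(2, ℤ)) :
    (g * g'⁻¹) 1 0 = g 1 0 * g' 1 1 - g 1 1 * g' 1 0 := by
  rw [Matrix.SpecialLinearGroup.coe_mul, Matrix.SpecialLinearGroup.coe_inv,
    Matrix.adjugate_fin_two, Matrix.mul_apply, Fin.sum_univ_two]
  simp
  ring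

/-- Hermite data at `d = N` determine the coset of `Γ₀(N)` -/
theorem mem_Gamma0_of_hermite_eq {g g' : SL(2, ℤ)} (H : HermiteData N g) (H' : HermiteData N g')
    (hA : H.A = H'.A) (hB : H.B = H'.B) (hD : H.D = H'.D) : g * g'⁻¹ ∈ Gamma0 N := by
  rw [Gamma0_mem, ZMod.intCast_zmod_eq_zero_iff_dvd, sl2_mul_inv_one_zero]
  refine ⟨H.g'' 1 0 * H'.g'' 1 1 - H.g'' 1 1 * H'.g'' 1 0, ?_⟩
  rw [← H.h10, ← H.h11, ← H'.h10, ← H'.h11, ← hA, ← hB, ← hD, ← H.A_mul_D]
  ring

theorem idx_eq_of_rep_mul_inv_mem (i i' : CuspIdx N) (h : rep N i * (rep N i')⁻¹ ∈ Gamma0 N) :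
    i = i' := by
  rw [rep, rep, inv_inv] at h
  rw [← QuotientGroup.out_eq' i, ← QuotientGroup.out_eq' i', QuotientGroup.eq]
  exact h

end Coset

section Dist

variable (N : ℕ) [NeZero N] {k : Type} [Field k] (φ : k →+* ℂ)
  {O : Type} [CommRing O] [IsDomain O] [IsDiscreteValuationRing O] [Algebra O k]
  [IsFractionRing O k]
  (hζ : ∀ D B : ℕ, D ∣ N → ∃ u : Oˣ,
    φ (algebraMap O k (u : O)) = Complex.exp (2 * Real.pi * Complex.I * B / D))
  (hD : ∀ D : ℕ, D ∣ N → IsUnit ((D : ℕ) : O))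

/-- the index of the generator `j(q^N)` -/
def genN : GenIdx N := (⟨N, dvd_rfl⟩, 0)

theorem phi_algebraMap_injective : Function.Injective (fun a : O => φ (algebraMap O k a)) :=
  φ.injective.comp (IsFractionRing.injective O k)

/-- the twists are roots of unity of order `Dn` -/
theorem xiO_pow_eq_one (i : CuspIdx N) (d : {d : ℕ // d ∣ N}) :
    (xiO N φ hζ i d) ^ (herm N i d).Dn = 1 := by
  apply Units.ext
  apply phi_algebraMap_injective (O := O) φ
  simp only [Units.val_pow_eq_pow_val, Units.val_one, map_pow, map_one]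
  rw [xiO_spec N φ hζ i d]
  exact rootExp_pow_eq_one _ _ _ ((herm N i d).coe_Dn (div_pos' N d))
    ((herm N i d).D_pos (div_pos' N d)).ne'

include hD in
/-- **the pairs `(e_i, ξ_i mod 𝔪)` at the generator `j(q^N)` determine the coset `i`** -/
theorem idx_eq_of_expo_eq_of_residue_eq (i i' : CuspIdx N)
    (he : expoX N (genN N) (herm N i (genN N).1) = expoX N (genN N) (herm N i' (genN N).1))
    (hξ : IsLocalRing.residue O (xiO N φ hζ i (genN N).1 : O) =
      IsLocalRing.residue O (xiO N φ hζ i' (genN N).1 : O)) : i = i' := by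
  set d : {d : ℕ // d ∣ N} := (genN N).1 with hd
  have hdpos : 0 < d.1 := div_pos' N d
  set H := herm N i d with hH
  set H' := herm N i' d with hH'
  -- `A = A'`
  have hNN : N / N = 1 := Nat.div_self (Nat.pos_of_ne_zero (NeZero.ne N))
  have hAn : H.An = H'.An := by
    have h1 : H.expo N = H'.expo N := he
    rw [HermiteData.expo, HermiteData.expo] at h1
    have hdiv : N / d.1 = 1 := hNN
    rw [hdiv, one_mul, one_mul] at h1
    exact Nat.pow_left_injective (by norm_num : 2 ≠ 0) h1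
  have hA : H.A = H'.A := by rw [← H.coe_An, ← H'.coe_An, hAn]
  have hDD : H.D = H'.D := by
    have h1 := H.A_mul_D
    have h2 := H'.A_mul_D
    rw [← hA] at h2
    exact mul_left_cancel₀ H.A_pos.ne' (h1.trans h2.symm)
  have hDn : H.Dn = H'.Dn := by
    have := (H.coe_Dn hdpos).trans (hDD.trans (H'.coe_Dn hdpos).symm)
    exact_mod_cast this
  -- the twists agree
  have hξeq : xiO N φ hζ i d = xiO N φ hζ i' d := by
    refine unit_eq_of_residue_eq _ _ H.Dn (hD _ (herm_Dn_dvd N i d)) (xiO_pow_eq_one N φ hζ i d)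
      ?_ hξ
    rw [hDn]
    exact xiO_pow_eq_one N φ hζ i' d
  have hroot : rootExp H.B H.D = rootExp H'.B H.D := by
    rw [← xiO_spec N φ hζ i d, hξeq, xiO_spec N φ hζ i' d, hDD]
  have hB : H.B = H'.B :=
    rootExp_injOn (H.D_pos hdpos) H.B_nonneg H.B_lt H'.B_nonneg (by rw [hDD]; exact H'.B_lt) hroot
  exact idx_eq_of_rep_mul_inv_mem N i i' (mem_Gamma0_of_hermite_eq N H H' hA hB hDD)

/-- `j(q^N)` as an element of the big field -/
def thetaN (k : Type) [Field k] (N : ℕ) [NeZero N] : bigField k N :=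
  ⟨jS k N, jS_mem_bigField k N dvd_rfl⟩

theorem sigma_thetaN (AF : AnalyticFacts N) (i : CuspIdx N) :
    (cuspDatumOfAnalytic N φ hζ hD AF).σ i (thetaN k N) =
      serEmb O k (cuspJ O (xiO N φ hζ i (genN N).1) (expoX N (genN N) (herm N i (genN N).1))) := by
  have h1 := (cuspInputOfAnalytic N φ hζ hD AF).σ_gen i (genN N) (jS_mem_bigField k N dvd_rfl)
  exact h1

/-- **DIST**: the expansions of `j(q^N)` at two different cusp indices differ by a unit of the
Gauss ring. -/
theorem dist_cuspDatumOfAnalytic (AF : AnalyticFacts N) (i i' : CuspIdx N) (hii' : i ≠ i') :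
    ∃ u ∈ gaussRing O k,
      ((cuspDatumOfAnalytic N φ hζ hD AF).σ i (thetaN k N) -
        (cuspDatumOfAnalytic N φ hζ hD AF).σ i' (thetaN k N)) * u = 1 := by
  rw [sigma_thetaN, sigma_thetaN, ← map_sub]
  set s : LaurentSeries O :=
    cuspJ O (xiO N φ hζ i (genN N).1) (expoX N (genN N) (herm N i (genN N).1)) -
      cuspJ O (xiO N φ hζ i' (genN N).1) (expoX N (genN N) (herm N i' (genN N).1)) with hs
  have hmem : serEmb O k s ∈ gaussRing O k := serEmb_mem_gaussRing s
  have hred : gaussRed O k ⟨serEmb O k s, hmem⟩ ≠ 0 := by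
    rw [gaussRed_serEmb, hs, map_sub, serRed, coeffMap_cuspJ, coeffMap_cuspJ, sub_ne_zero]
    intro heq
    obtain ⟨he, hξ⟩ := cuspJ_pair_injective heq
    apply hii'
    refine idx_eq_of_expo_eq_of_residue_eq N φ hζ hD i i' he ?_
    have := congrArg (fun u : (IsLocalRing.ResidueField O)ˣ => (u : IsLocalRing.ResidueField O)) hξ
    simpa using this
  have h0 : serEmb O k s ≠ 0 := by
    intro h0
    apply hred
    have : (⟨serEmb O k s, hmem⟩ : gaussRing O k) = 0 := Subtype.ext h0
    rw [this, map_zero]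
  exact ⟨(serEmb O k s)⁻¹, inv_mem_gaussRing hmem hred, mul_inv_cancel₀ h0⟩

end Dist

end Fermat.Agent.GJ.J1.Res
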