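import Fermat.Agent.S28.CoreGauss5
import Fermat.Agent.S28.SymExtend

/-!
# GATE-J / J1 / M-RES (R1): Gauss transfer for arbitrary elements

Setting of `S28.ChartHyp`: a field `E` over `k = Frac O` (`O` a DVR), embeddings
`σ i : E →ₐ[k] k((t))` which all send the chart parameter `G` to the same series `Gs`.
If all the reduction maps `h.rho i` on the integral closure of `O[G]` have the same kernel (this is
`S28.ChartHyp.rho_ker_eq`), then the Gauss valuations `v ∘ σ i` on `E` all coincide:

* `gauss_transfer` : `σ i x ∈ gaussRing → σ j x ∈ gaussRing` for **every** `x : E`;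
* `gaussRed_sigma_eq_zero` : `gaussRed (σ i x) = 0 → gaussRed (σ j x) = 0`.
-/

set_option autoImplicit false
set_option linter.unusedSectionVars false

noncomputable section

namespace Fermat.Agent.GJ.J1.Res

open Polynomial ModularCurve Fermat.Agent.S28

section Basic

variable {O : Type*} {k : Type*} [CommRing O] [IsDomain O] [IsDiscreteValuationRing O]
  [Field k] [Algebra O k] [IsFractionRing O k]

/-- bounded denominators in the Gauss field -/
theorem exists_pow_mul_mem_gaussRing {ϖ : O} (hϖ : Irreducible ϖ) {x : LaurentSeries k}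
    (hx : x ∈ gaussField O k) :
    ∃ s : ℕ, HahnSeries.C (algebraMap O k ϖ) ^ s * x ∈ gaussRing O k := by
  by_cases hx0 : x = 0
  · exact ⟨0, by rw [hx0, mul_zero]; exact zero_mem _⟩
  obtain ⟨a, b, v, hv, -, hxv⟩ := exists_pow_mul_eq_pow_mul hϖ hx hx0
  refine ⟨b, ?_⟩
  rw [mul_comm, hxv]
  exact mul_mem (pow_mem (C_mem_gaussRing ϖ) a) hv

/-- cancelling a unit of the Gauss ring -/
theorem mem_gaussRing_of_mul_mem {u w : LaurentSeries k} (hu : u ∈ gaussRing O k)
    (hured : gaussRed O k ⟨u, hu⟩ ≠ 0) (huw : u * w ∈ gaussRing O k) : w ∈ gaussRing O k := by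
  have hu0 : u ≠ 0 := by
    rintro rfl
    exact hured (map_zero (gaussRed O k))
  have : w = u⁻¹ * (u * w) := by rw [← mul_assoc, inv_mul_cancel₀ hu0, one_mul]
  rw [this]
  exact mul_mem (inv_mem_gaussRing hu hured) huw

theorem gaussRed_mul_mk {u w : LaurentSeries k} (hu : u ∈ gaussRing O k) (hw : w ∈ gaussRing O k) :
    gaussRed O k ⟨u * w, mul_mem hu hw⟩ = gaussRed O k ⟨u, hu⟩ * gaussRed O k ⟨w, hw⟩ := by
  rw [← map_mul]
  rfl

theorem evalLk_mem_gaussField {Gs : LaurentSeries k} (hG : Gs ∈ gaussRing O k) (P : k[X]) :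
    evalLk Gs P ∈ gaussField O k := by
  rw [evalLk, Polynomial.coe_eval₂RingHom, Polynomial.eval₂_eq_sum_range]
  exact sum_mem fun j _ => mul_mem (C_mem_gaussField _) (pow_mem (gaussRing_le_gaussField hG) j)

end Basic

section GT

variable {O : Type*} {k : Type*} [CommRing O] [IsDomain O] [IsDiscreteValuationRing O]
  [Field k] [Algebra O k] [IsFractionRing O k]
variable {E : Type*} [Field E] [Algebra k E] {I : Type*} [Fintype I] [DecidableEq I]
variable {σ : I → (E →ₐ[k] LaurentSeries k)} {G : E} {Gs : LaurentSeries k}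

theorem sigma_evalEk (h : ChartHyp (O := O) σ G Gs) (i : I) (q : k[X]) :
    σ i (evalEk k G q) = evalLk Gs q := by
  have h1 := congrArg (fun f => f q) (sigma_comp_evalEk (σ i) G)
  simp only [RingHom.comp_apply] at h1
  rw [← h.map_G i]
  exact h1

/-- a common denominator: `q(G) * x` is integral over `k[G]` -/
theorem exists_isIntegralElem_mul (h : ChartHyp (O := O) σ G Gs) (i₀ : I) (x : E) :
    ∃ q : k[X], q ≠ 0 ∧ (evalEk k G).IsIntegralElem (evalEk k G q * x) := by
  classical
  set n := Fintype.card I with hn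
  set P : (LaurentSeries k)[X] := ∏ i, (Polynomial.X - Polynomial.C (σ i x)) with hP
  have hPmonic : P.Monic :=
    Polynomial.monic_prod_of_monic _ _ fun i _ => Polynomial.monic_X_sub_C _
  have hPdeg : P.natDegree = n := by
    rw [hP, Polynomial.natDegree_prod_of_monic _ _ fun i _ => Polynomial.monic_X_sub_C _]
    simp [hn]
  choose p q hq hpq using fun m => h.symrat x m
  set Q : k[X] := ∏ m ∈ Finset.range n, q m with hQ
  have hQ0 : Q ≠ 0 := Finset.prod_ne_zero_iff.mpr fun m _ => hq m
  refine ⟨Q, hQ0, ?_⟩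
  -- the characteristic polynomial of `Q(G) x`
  have hσ : ∀ i, σ i (evalEk k G Q * x) = σ i x * evalLk Gs Q := fun i => by
    rw [map_mul, sigma_evalEk h, mul_comm]
  have hscale : P.scaleRoots (evalLk Gs Q) =
      ∏ i, (Polynomial.X - Polynomial.C (σ i (evalEk k G Q * x))) := by
    rw [hP, SymExtend.scaleRoots_prod_X_sub_C]
    exact Finset.prod_congr rfl fun i _ => by rw [hσ i]
  have hmonic' : (P.scaleRoots (evalLk Gs Q)).Monic :=
    (Polynomial.monic_scaleRoots_iff _).mpr hPmonic
  have hcoeff : ∀ m, (P.scaleRoots (evalLk Gs Q)).coeff m ∈ Set.range (evalLk Gs) := by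
    intro m
    rw [Polynomial.coeff_scaleRoots, hPdeg]
    rcases lt_trichotomy m n with hm | hm | hm
    · -- `m < n`
      have hsplit : Q = q m * ∏ m' ∈ (Finset.range n).erase m, q m' :=
        (Finset.mul_prod_erase _ _ (Finset.mem_range.mpr hm)).symm
      obtain ⟨e, he⟩ : ∃ e, n - m = e + 1 := ⟨n - m - 1, by omega⟩
      have hQs : evalLk Gs Q =
          evalLk Gs (q m) * evalLk Gs (∏ m' ∈ (Finset.range n).erase m, q m') := by
        rw [← map_mul, ← hsplit]
      refine ⟨p m * (∏ m' ∈ (Finset.range n).erase m, q m') * Q ^ e, ?_⟩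
      rw [he, pow_succ, map_mul, map_mul, map_pow, ← hpq m, hP]
      rw [hQs]
      ring
    · subst hm
      refine ⟨1, ?_⟩
      rw [map_one, Nat.sub_self, pow_zero, mul_one, ← hPdeg]
      exact hPmonic.coeff_natDegree.symm
    · refine ⟨0, ?_⟩
      rw [map_zero, Polynomial.coeff_eq_zero_of_natDegree_lt (by rw [hPdeg]; exact hm), zero_mul]
  have h1 : (evalLk Gs).IsIntegralElem (σ i₀ (evalEk k G Q * x)) := by
    refine CoreAlg.isIntegralElem_of_monic_of_coeff_mem_range _ _ hmonic' hcoeff ?_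
    rw [hscale, Polynomial.eval_prod]
    exact Finset.prod_eq_zero (Finset.mem_univ i₀) (by simp)
  rw [← h.map_G i₀, ← sigma_comp_evalEk] at h1
  exact h1.of_map (σ i₀ : E →+* LaurentSeries k).injective

/-- a common denominator whose expansion is a unit of the Gauss ring -/
theorem exists_unit_denominator (h : ChartHyp (O := O) σ G Gs) (i₀ : I) (x : E) :
    ∃ (q : k[X]) (hq : evalLk Gs q ∈ gaussRing O k), gaussRed O k ⟨evalLk Gs q, hq⟩ ≠ 0 ∧
      (evalEk k G).IsIntegralElem (evalEk k G q * x) := by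
  obtain ⟨ϖ, hϖ⟩ := IsDiscreteValuationRing.exists_irreducible O
  have hϖk : algebraMap O k ϖ ≠ 0 := by
    intro h0
    exact hϖ.ne_zero ((IsFractionRing.injective O k) (by rw [h0, map_zero]))
  obtain ⟨Q, hQ0, hQint⟩ := exists_isIntegralElem_mul h i₀ x
  have hQs0 : evalLk Gs Q ≠ 0 := fun h0 => hQ0 (h.inj_k (by rw [h0, map_zero]))
  obtain ⟨a, b, v, hv, hvred, hxv⟩ :=
    exists_pow_mul_eq_pow_mul hϖ (evalLk_mem_gaussField h.mem Q) hQs0
  set c : k := algebraMap O k ϖ ^ b / algebraMap O k ϖ ^ a with hc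
  have hval : evalLk Gs (Polynomial.C c * Q) = v := by
    rw [evalLk_C_mul, hc, map_div₀, map_pow, map_pow, div_mul_eq_mul_div, mul_comm, hxv,
      mul_div_assoc, mul_comm, div_mul_cancel₀]
    exact pow_ne_zero _ (C_unif_ne_zero hϖ)
  refine ⟨Polynomial.C c * Q, by rw [hval]; exact hv, ?_, ?_⟩
  · have : (⟨evalLk Gs (Polynomial.C c * Q), by rw [hval]; exact hv⟩ : gaussRing O k) =
        ⟨v, hv⟩ := Subtype.ext hval
    rw [this]
    exact hvred
  · rw [map_mul, mul_assoc]
    refine RingHom.IsIntegralElem.mul _ ?_ hQint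
    exact (evalEk k G).isIntegralElem_map

/-- the induction: an element integral over `k[G]`, with bounded denominators in all expansions
and one Gauss-integral expansion, is integral over `O[G]` -/
theorem isIntegralElem_of_one_mem (h : ChartHyp (O := O) σ G Gs)
    (hker : ∀ i j, RingHom.ker (h.rho i) = RingHom.ker (h.rho j))
    {ϖ : O} (hϖ : Irreducible ϖ) (i : I) (s : ℕ) :
    ∀ a : E, (evalEk k G).IsIntegralElem a →
      (∀ l, HahnSeries.C (algebraMap O k ϖ) ^ s * σ l a ∈ gaussRing O k) →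
      σ i a ∈ gaussRing O k → (evalE O k G).IsIntegralElem a := by
  induction s with
  | zero =>
    intro a ha hall _
    exact h.isIntegralElem_of_forall_mem i ha fun l => by simpa using hall l
  | succ s ih =>
    intro a ha hall hi
    set ϖk : k := algebraMap O k ϖ with hϖk
    set z : E := algebraMap k E (ϖk ^ (s + 1)) * a with hz
    have hσz : ∀ l, σ l z = HahnSeries.C ϖk ^ (s + 1) * σ l a := fun l => by
      rw [hz, map_mul, AlgHom.commutes, algebraMap_eq_C, map_pow]
    have hzk : (evalEk k G).IsIntegralElem z := by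
      refine RingHom.IsIntegralElem.mul _ ?_ ha
      have : algebraMap k E (ϖk ^ (s + 1)) = evalEk k G (Polynomial.C (ϖk ^ (s + 1))) := by
        simp [evalEk]
      rw [this]
      exact (evalEk k G).isIntegralElem_map
    have hzO : (evalE O k G).IsIntegralElem z :=
      h.isIntegralElem_of_forall_mem i hzk fun l => by rw [hσz l]; exact hall l
    -- the reduction at `i` vanishes
    have hmem_i : HahnSeries.C ϖk ^ s * σ i a ∈ gaussRing O k :=
      mul_mem (pow_mem (C_mem_gaussRing ϖ) s) hi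
    have h0 : h.rho i ⟨z, hzO⟩ = 0 := by
      rw [ChartHyp.rho_apply]
      refine (gaussRed_eq_zero_iff hϖ _).mpr ⟨_, hmem_i, ?_⟩
      show σ i z = _
      rw [hσz i, pow_succ]
      ring
    refine ih a ha (fun l => ?_) hi
    have h1 : h.rho l ⟨z, hzO⟩ = 0 := by
      have : (⟨z, hzO⟩ : intSubring (evalE O k G)) ∈ RingHom.ker (h.rho i) :=
        (RingHom.mem_ker).mpr h0
      rw [hker i l] at this
      exact (RingHom.mem_ker).mp this
    rw [ChartHyp.rho_apply] at h1
    obtain ⟨v, hv, hzv⟩ := (gaussRed_eq_zero_iff hϖ _).mp h1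
    have hzv' : σ l z = HahnSeries.C ϖk * v := hzv
    rw [hσz l, pow_succ, mul_comm (HahnSeries.C ϖk ^ s), mul_assoc] at hzv'
    have := mul_left_cancel₀ (C_unif_ne_zero hϖ) hzv'
    rw [this]
    exact hv

/-- **Gauss transfer**: if one expansion of `x : E` is Gauss-integral then all are. -/
theorem gauss_transfer (h : ChartHyp (O := O) σ G Gs)
    (hker : ∀ i j, RingHom.ker (h.rho i) = RingHom.ker (h.rho j))
    (x : E) (i j : I) (hx : σ i x ∈ gaussRing O k) : σ j x ∈ gaussRing O k := by
  obtain ⟨ϖ, hϖ⟩ := IsDiscreteValuationRing.exists_irreducible O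
  obtain ⟨q, hq, hqred, hy⟩ := exists_unit_denominator h i x
  have hσy : ∀ l, σ l (evalEk k G q * x) = evalLk Gs q * σ l x := fun l => by
    rw [map_mul, sigma_evalEk h]
  choose s hs using fun l => exists_pow_mul_mem_gaussRing hϖ (h.field l (evalEk k G q * x))
  have hall : ∀ l, HahnSeries.C (algebraMap O k ϖ) ^ (∑ l', s l') * σ l (evalEk k G q * x) ∈
      gaussRing O k := by
    intro l
    have hle : s l ≤ ∑ l', s l' := Finset.single_le_sum (fun _ _ => Nat.zero_le _)
      (Finset.mem_univ l)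
    obtain ⟨e, he⟩ := Nat.exists_eq_add_of_le hle
    rw [he, pow_add, mul_comm (HahnSeries.C (algebraMap O k ϖ) ^ s l), mul_assoc]
    exact mul_mem (pow_mem (C_mem_gaussRing ϖ) e) (hs l)
  have hyO : (evalE O k G).IsIntegralElem (evalEk k G q * x) :=
    isIntegralElem_of_one_mem h hker hϖ i _ _ hy hall (by rw [hσy i]; exact mul_mem hq hx)
  have hj := h.sigma_mem_gaussRing hyO j
  rw [hσy j] at hj
  exact mem_gaussRing_of_mul_mem hq hqred hj

/-- **Gauss transfer, reductions**: the expansions of `x : E` reduce to zero simultaneously. -/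
theorem gaussRed_sigma_eq_zero (h : ChartHyp (O := O) σ G Gs)
    (hker : ∀ i j, RingHom.ker (h.rho i) = RingHom.ker (h.rho j))
    (x : E) (i j : I) (hxi : σ i x ∈ gaussRing O k) (hxj : σ j x ∈ gaussRing O k)
    (h0 : gaussRed O k ⟨σ i x, hxi⟩ = 0) : gaussRed O k ⟨σ j x, hxj⟩ = 0 := by
  obtain ⟨q, hq, hqred, hy⟩ := exists_unit_denominator h i x
  have hσy : ∀ l, σ l (evalEk k G q * x) = evalLk Gs q * σ l x := fun l => by
    rw [map_mul, sigma_evalEk h]
  have hyO : (evalE O k G).IsIntegralElem (evalEk k G q * x) :=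
    h.isIntegralElem_of_forall_mem i hy fun l => by
      rw [hσy l]
      exact mul_mem hq (gauss_transfer h hker x i l hxi)
  have hri : h.rho i ⟨_, hyO⟩ = 0 := by
    rw [ChartHyp.rho_apply]
    have : (⟨σ i (evalEk k G q * x), h.sigma_mem_gaussRing hyO i⟩ : gaussRing O k) =
        ⟨evalLk Gs q * σ i x, mul_mem hq hxi⟩ := Subtype.ext (hσy i)
    rw [this, gaussRed_mul_mk hq hxi, h0, mul_zero]
  have hrj : h.rho j ⟨_, hyO⟩ = 0 := by
    have : (⟨_, hyO⟩ : intSubring (evalE O k G)) ∈ RingHom.ker (h.rho i) :=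
      (RingHom.mem_ker).mpr hri
    rw [hker i j] at this
    exact (RingHom.mem_ker).mp this
  rw [ChartHyp.rho_apply] at hrj
  have : (⟨σ j (evalEk k G q * x), h.sigma_mem_gaussRing hyO j⟩ : gaussRing O k) =
      ⟨evalLk Gs q * σ j x, mul_mem hq hxj⟩ := Subtype.ext (hσy j)
  rw [this, gaussRed_mul_mk hq hxj] at hrj
  exact (mul_eq_zero.mp hrj).resolve_left hqred

end GT

end Fermat.Agent.GJ.J1.Res
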