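import Fermat.Agent.S28.CoreGauss5

/-!
# GATE-J / J1 / M-RES: the subfield of series rational in a chart series `Gs`

`ratSub Gs` is the subring of `k((t))` of the `c` with `c * q(Gs) = p(Gs)` for polynomials
`p q : k[X]`, `q(Gs) ≠ 0` (the fraction field of `k[Gs]` inside `k((t))`), with the Gauss lemma for
its elements: an element of `ratSub Gs ∩ gaussRing` reduces to a quotient of polynomials in the
reduction of `Gs`.
-/

set_option autoImplicit false
set_option linter.unusedSectionVars false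

noncomputable section

namespace Fermat.Agent.GJ.J1.Res

open Polynomial ModularCurve Fermat.Agent.S28

section RatSub

variable {k : Type*} [Field k]

/-- series which are rational functions of `Gs` -/
def ratSub (Gs : LaurentSeries k) : Subring (LaurentSeries k) where
  carrier := {c | ∃ p q : k[X], evalLk Gs q ≠ 0 ∧ c * evalLk Gs q = evalLk Gs p}
  zero_mem' := ⟨0, 1, by simp, by simp⟩
  one_mem' := ⟨1, 1, by simp, by simp⟩
  add_mem' := by
    rintro a b ⟨p, q, hq, hpq⟩ ⟨p', q', hq', hpq'⟩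
    refine ⟨p * q' + p' * q, q * q', ?_, ?_⟩
    · rw [map_mul]; exact mul_ne_zero hq hq'
    · rw [map_mul, map_add, map_mul, map_mul, ← hpq, ← hpq']; ring
  mul_mem' := by
    rintro a b ⟨p, q, hq, hpq⟩ ⟨p', q', hq', hpq'⟩
    refine ⟨p * p', q * q', ?_, ?_⟩
    · rw [map_mul]; exact mul_ne_zero hq hq'
    · rw [map_mul, map_mul, ← hpq, ← hpq']; ring
  neg_mem' := by
    rintro a ⟨p, q, hq, hpq⟩
    exact ⟨-p, q, hq, by rw [map_neg, ← hpq]; ring⟩

theorem mem_ratSub_iff {Gs c : LaurentSeries k} :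
    c ∈ ratSub Gs ↔ ∃ p q : k[X], evalLk Gs q ≠ 0 ∧ c * evalLk Gs q = evalLk Gs p := Iff.rfl

theorem evalLk_mem_ratSub (Gs : LaurentSeries k) (p : k[X]) : evalLk Gs p ∈ ratSub Gs :=
  ⟨p, 1, by simp, by simp⟩

/-- `ratSub Gs` is closed under division -/
theorem mem_ratSub_of_mul_mem {Gs b c : LaurentSeries k} (hb : b ∈ ratSub Gs) (hb0 : b ≠ 0)
    (hbc : b * c ∈ ratSub Gs) : c ∈ ratSub Gs := by
  obtain ⟨p, q, hq, hpq⟩ := hb
  obtain ⟨p', q', hq', hpq'⟩ := hbc
  have hp0 : evalLk Gs p ≠ 0 := by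
    rw [← hpq]
    exact mul_ne_zero hb0 hq
  refine ⟨p' * q, q' * p, ?_, ?_⟩
  · rw [map_mul]; exact mul_ne_zero hq' hp0
  · rw [map_mul, map_mul, ← hpq', ← hpq]; ring

/-- rationality in the sense of `ChartHyp.symrat` -/
theorem mem_ratSub_of_symrat {Gs c : LaurentSeries k} (hinj : Function.Injective (evalLk Gs))
    (h : ∃ p q : k[X], q ≠ 0 ∧ c * evalLk Gs q = evalLk Gs p) : c ∈ ratSub Gs := by
  obtain ⟨p, q, hq, hpq⟩ := h
  exact ⟨p, q, fun h0 => hq (hinj (by rw [h0, map_zero])), hpq⟩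

end RatSub

section GaussLemma

variable {O : Type*} {k : Type*} [CommRing O] [IsDomain O] [IsDiscreteValuationRing O]
  [Field k] [Algebra O k] [IsFractionRing O k]

/-- **Gauss lemma for rational functions**: an element of the Gauss ring which is a rational
function of `Gs` (with `Gs` Gauss-integral of transcendental reduction `g`) reduces to a rational
function of `g`. -/
theorem gaussRed_mem_of_mem_ratSub {Gs : LaurentSeries k} (hG : Gs ∈ gaussRing O k)
    (htr : Function.Injective (evalκ (gaussRed O k ⟨Gs, hG⟩)))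
    {c : LaurentSeries k} (hc : c ∈ gaussRing O k) (hcr : c ∈ ratSub Gs) :
    ∃ P Q : (IsLocalRing.ResidueField O)[X], evalκ (gaussRed O k ⟨Gs, hG⟩) Q ≠ 0 ∧
      gaussRed O k ⟨c, hc⟩ * evalκ (gaussRed O k ⟨Gs, hG⟩) Q =
        evalκ (gaussRed O k ⟨Gs, hG⟩) P := by
  obtain ⟨ϖ, hϖ⟩ := IsDiscreteValuationRing.exists_irreducible O
  obtain ⟨p, q, hq, hpq⟩ := hcr
  -- scale `q` so that `q(Gs)` is a unit of the Gauss ring
  have hqf : evalLk Gs q ∈ gaussField O k := by
    rw [evalLk, Polynomial.coe_eval₂RingHom, Polynomial.eval₂_eq_sum_range]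
    exact sum_mem fun j _ => mul_mem (C_mem_gaussField _) (pow_mem (gaussRing_le_gaussField hG) j)
  obtain ⟨a, b, v, hv, hvred, hxv⟩ := exists_pow_mul_eq_pow_mul hϖ hqf hq
  set e : k := algebraMap O k ϖ ^ b / algebraMap O k ϖ ^ a with he
  have hvalq : evalLk Gs (Polynomial.C e * q) = v := by
    rw [evalLk_C_mul, he, map_div₀, map_pow, map_pow, div_mul_eq_mul_div, mul_comm, hxv,
      mul_div_assoc, mul_comm, div_mul_cancel₀]
    exact pow_ne_zero _ (C_unif_ne_zero hϖ)
  have hvalp : evalLk Gs (Polynomial.C e * p) = c * v := by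
    rw [evalLk_C_mul, ← hpq, ← hvalq, evalLk_C_mul]; ring
  obtain ⟨Q', hQ'⟩ := exists_map_eq_of_evalLk_mem_gaussRing hG htr (Polynomial.C e * q)
    (by rw [hvalq]; exact hv)
  obtain ⟨P', hP'⟩ := exists_map_eq_of_evalLk_mem_gaussRing hG htr (Polynomial.C e * p)
    (by rw [hvalp]; exact mul_mem hc hv)
  have hredV : ∀ R : O[X], gaussRed O k (evalV hG R) =
      evalκ (gaussRed O k ⟨Gs, hG⟩) (R.map (IsLocalRing.residue O)) := by
    intro R
    have h1 := congrArg (fun f => f R) (gaussRed_comp_evalV (O := O) (k := k) hG)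
    simp only [RingHom.comp_apply] at h1
    rw [h1]
    rfl
  have hQv : (evalV hG Q' : gaussRing O k) = ⟨v, hv⟩ := by
    apply Subtype.ext
    rw [coe_evalV, ← evalLk_map, hQ', hvalq]
  have hPv : (evalV hG P' : gaussRing O k) = ⟨c, hc⟩ * ⟨v, hv⟩ := by
    apply Subtype.ext
    rw [coe_evalV, ← evalLk_map, hP', hvalp]
    rfl
  refine ⟨P'.map (IsLocalRing.residue O), Q'.map (IsLocalRing.residue O), ?_, ?_⟩
  · rw [← hredV, hQv]
    exact hvred
  · rw [← hredV, ← hredV, hQv, hPv, map_mul]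

end GaussLemma

end Fermat.Agent.GJ.J1.Res
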