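import Fermat.Agent.GJ.J1.Res.ResA
import Fermat.Agent.GJ.S18.K18StrongRes
import Fermat.Agent.GJ.Kum.ESUncond

/-!
# GATE-J / J1 / M-RES: adapters `RES ⟹ Kum.RedMem`, `K18 ⟹ K18s`, `K18 ⟹ ES`

`Kum.RedMem N A` (helper44's interface Prop for the `q`-expansion principle on the special fibre)
is exactly `Res.res`; so helper45's `k18s_of_k18_of_redMem` and helper44's `es_of_k18_only` become
unconditional in the `RedMem` argument.
-/

set_option autoImplicit false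

noncomputable section

namespace Fermat.Agent.GJ.J1.Res

open ModularCurve Fermat.Agent.GJ.S18.Front

/-- `Kum.RedMem N A` is a theorem for `ℓ ∤ N`, `A` over `ℓ` -/
theorem redMem (N : ℕ) [NeZero N] {ℓ : ℕ} [Fact ℓ.Prime] (hℓN : ¬ ℓ ∣ N)
    (A : ValuationSubring (AlgebraicClosure ℚ)) (hA : A.LiesOverPrime ℓ) :
    Fermat.Agent.GJ.Kum.RedMem N A :=
  fun y hy => res N hℓN A hA y hy

/-- `K18 ⟹ K18s`, the `RedMem` hypothesis discharged -/
theorem k18s_of_k18 (N : ℕ) [NeZero N] {ℓ : ℕ} [Fact ℓ.Prime] (hℓN : ¬ ℓ ∣ N)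
    (A : ValuationSubring (AlgebraicClosure ℚ)) (hA : A.LiesOverPrime ℓ) {m : ℕ}
    (hK : K18 A (IsLocalRing.residue A) N m) : K18s A (IsLocalRing.residue A) N m :=
  k18s_of_k18_of_redMem N A hK (redMem N hℓN A hA)

/-- `K18` at every place over `ℓ` gives IFACE:ES (`ESInertia ∧ ESFrob`), no `RedMem` hypothesis -/
theorem es_of_k18 (N p ℓ : ℕ) [NeZero N] [Fact ℓ.Prime] (hp : 0 < p)
    (hℓN : ¬ ℓ ∣ N)
    (hK : ∀ A : ValuationSubring (AlgebraicClosure ℚ), A.LiesOverPrime ℓ →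
      K18 A (IsLocalRing.residue A) N p) :
    Fermat.Agent.GJ.Kum.ESInertia N p ℓ ∧ Fermat.Agent.GJ.Kum.ESFrob N p ℓ :=
  Fermat.Agent.GJ.Kum.es_of_k18_only N p ℓ hℓN hp hK (fun A hA => redMem N hℓN A hA)

end Fermat.Agent.GJ.J1.Res
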