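import Fermat.Agent.GJ.J1.Res.ResDVR
import Fermat.Agent.GJ.J1.Res.Dist

/-!
# GATE-J / J1 / M-RES: RES at the DVR level, unconditionally for the analytic cusp datum

For `D = S28.Assemble.cuspDatumOfAnalytic N φ hζ hD AF` over a DVR `O` with fraction field `k`:
the reduction of every Gauss-integral element of `bigField k N` lies in
`modularFunctionFieldFullC κ N`, and every element of the big field is a `k(j)`-combination of
`1, j_N, …, j_N^(n-1)` with Gauss-integral coefficients iff it is Gauss-integral.
-/

set_option autoImplicit false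
set_option linter.unusedSectionVars false

noncomputable section

namespace Fermat.Agent.GJ.J1.Res

open ModularCurve Fermat.Agent.S28 Fermat.Agent.S28.Assemble

section

variable (N : ℕ) [NeZero N] {k : Type} [Field k] (φ : k →+* ℂ)
  {O : Type} [CommRing O] [IsDomain O] [IsDiscreteValuationRing O] [Algebra O k]
  [IsFractionRing O k]
  (hζ : ∀ D B : ℕ, D ∣ N → ∃ u : Oˣ,
    φ (algebraMap O k (u : O)) = Complex.exp (2 * Real.pi * Complex.I * B / D))
  (hD : ∀ D : ℕ, D ∣ N → IsUnit ((D : ℕ) : O))

theorem thetaN_eq_serEmb : ((thetaN k N : bigField k N) : LaurentSeries k) = serEmb O k (jS O N) := by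
  rw [serEmb, coeffMap_jS]
  rfl

theorem thetaN_mem_gaussRing : ((thetaN k N : bigField k N) : LaurentSeries k) ∈ gaussRing O k := by
  rw [thetaN_eq_serEmb N (O := O)]
  exact serEmb_mem_gaussRing _

theorem gaussRed_thetaN :
    gaussRed O k ⟨((thetaN k N : bigField k N) : LaurentSeries k), thetaN_mem_gaussRing N⟩ =
      jS (IsLocalRing.ResidueField O) N := by
  have : (⟨((thetaN k N : bigField k N) : LaurentSeries k), thetaN_mem_gaussRing N⟩ :
      gaussRing O k) = ⟨serEmb O k (jS O N), serEmb_mem_gaussRing _⟩ :=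
    Subtype.ext (thetaN_eq_serEmb N)
  rw [this, gaussRed_serEmb, serRed, coeffMap_jS]

include φ hζ hD in
/-- **RES at the DVR level for the analytic cusp datum.** -/
theorem gaussRed_mem_full_of_analytic (AF : AnalyticFacts N) (x : bigField k N)
    (hx : (x : LaurentSeries k) ∈ gaussRing O k) :
    gaussRed O k ⟨x, hx⟩ ∈ modularFunctionFieldFullC (IsLocalRing.ResidueField O) N := by
  refine gaussRed_mem_full (cuspDatumOfAnalytic N φ hζ hD AF) (thetaN k N)
    (thetaN_mem_gaussRing N) ?_ ?_ x hx
  · rw [gaussRed_thetaN]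
    exact jqModCd_mem_full _ N dvd_rfl
  · intro i i' hii'
    exact dist_cuspDatumOfAnalytic N φ hζ hD AF i i' hii'

end

end Fermat.Agent.GJ.J1.Res
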