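import Fermat.Agent.GJ.J1.Gauss.Main
import Fermat.Agent.GJ.J1.Res.ResDatum

/-!
# GATE-J / J1 / M-RES: RES over a valuation ring of `ℚ̄`

`RES N A`: for `A` a valuation subring of `ℚ̄` above `ℓ ∤ N`, the coefficientwise reduction of an
`A`-integral `q`-series lying in the function field `modularFunctionFieldBar N` lies in the
function field `modularFunctionFieldFullC k N` of the special fibre (`k` the residue field of
`A`).  Proof: descent to a number field `E ∋ ζ_N` (helper92's `GJ/J1/Gauss`), where `A ∩ E` is a
DVR, and the DVR-level statement `gaussRed_mem_full_of_analytic`.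
-/

set_option autoImplicit false
set_option linter.unusedSectionVars false

noncomputable section

namespace Fermat.Agent.GJ.J1.Res

open Polynomial ModularCurve Fermat.Agent.S28 Fermat.Agent.GJ.Gauss

section Transport

/-- coefficientwise field homomorphisms map the special-fibre function field into the
special-fibre function field -/
theorem coeffMap_mem_fullC {κ k : Type*} [Field κ] [Field k] (g : κ →+* k) (N : ℕ)
    {x : LaurentSeries κ} (hx : x ∈ modularFunctionFieldFullC κ N) :
    coeffMap g x ∈ modularFunctionFieldFullC k N := by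
  unfold modularFunctionFieldFullC at hx
  induction hx using IntermediateField.adjoin_induction with
  | mem x hx =>
    obtain ⟨d, hne, hd, rfl⟩ := hx
    rw [coeffMap_qExpand, coeffMap_jqModC]
    exact jqModCd_mem_full k N hd
  | algebraMap c =>
    rw [coeffMap_algebraMap_laurent]
    exact (modularFunctionFieldFullC k N).algebraMap_mem _
  | add x y hx hy ihx ihy => rw [map_add]; exact add_mem ihx ihy
  | inv x hx ih => rw [map_inv₀]; exact inv_mem ih
  | mul x y hx hy ihx ihy => rw [map_mul]; exact mul_mem ihx ihy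

end Transport

section ResA

variable {L : Type} [Field L] [Algebra ℚ L] [Algebra.IsAlgebraic ℚ L]
variable (A : ValuationSubring L) {ℓ : ℕ} [Fact ℓ.Prime]
variable (M : ℕ) [NeZero M]
variable (ι : L →+* ℂ) {zL : L}

/-- `OE → A` is a local homomorphism -/
theorem isLocalHom_oeToA (hA : A.LiesOverPrime ℓ) (E : IntermediateField ℚ L) [NumberField E] :
    IsLocalHom (oeToA A E) := by
  constructor
  intro a ha
  obtain ⟨b, hb⟩ := ha.exists_right_inv
  -- `b : A` with `a * b = 1`; then `b = a⁻¹ ∈ E`
  have h2 : (((a : OE A E) : E) : L) * (b : L) = 1 := by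
    have h3 := congrArg (fun z : A => (z : L)) hb
    exact h3
  have h4 : (((a : OE A E) : E) : L) ≠ 0 := left_ne_zero_of_mul_eq_one h2
  have ha0 : (a : E) ≠ 0 := by
    intro h0
    apply h4
    rw [h0]
    simp
  have hbL : (b : L) = ((((a : OE A E) : E)⁻¹ : E) : L) := by
    have : (((((a : OE A E) : E)⁻¹ : E)) : L) = ((((a : OE A E) : E) : L))⁻¹ := by simp
    rw [this]
    exact eq_inv_of_mul_eq_one_right h2
  have hinv : ((a : OE A E) : E)⁻¹ ∈ OE A E := by
    rw [mem_OE_iff A E hA, ← hbL]
    exact b.2
  refine IsUnit.of_mul_eq_one (⟨((a : OE A E) : E)⁻¹, hinv⟩ : OE A E) (Subtype.ext ?_)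
  rw [Subalgebra.coe_mul, Subalgebra.coe_one]
  exact mul_inv_cancel₀ ha0

/-- **RES over `A`** (generic form, with an embedding `ι : L → ℂ` and `ζ_M ∈ L`). -/
theorem res_generic (hA : A.LiesOverPrime ℓ) (hℓM : ¬ ℓ ∣ M) (hz : ι zL = zetaC M)
    (y : LaurentSeries A)
    (hy : coeffMap A.subtype y ∈ laurentBaseChange L (modularFunctionFieldFull M)) :
    coeffMap (IsLocalRing.residue A) y ∈
      modularFunctionFieldFullC (IsLocalRing.ResidueField A) M := by
  classical
  obtain ⟨S₁, h₁⟩ := desc_of_mem M hy
  -- the number field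
  obtain ⟨E, hSE, hfd⟩ : ∃ E : IntermediateField ℚ L,
      (↑(S₁ ∪ {zL}) : Set L) ⊆ E ∧ FiniteDimensional ℚ E :=
    ⟨IntermediateField.adjoin ℚ (↑(S₁ ∪ {zL}) : Set L),
      IntermediateField.subset_adjoin ℚ _,
      IntermediateField.finiteDimensional_adjoin
        (fun x _ => (Algebra.IsAlgebraic.isAlgebraic x).isIntegral)⟩
  have : CharZero L := algebraRat.charZero L
  have : NumberField E :=
    @NumberField.mk E _ inferInstance (by convert hfd; exact Subsingleton.elim _ _)
  have hzE : zL ∈ E := hSE (by simp)
  obtain ⟨xE, hxE, hx⟩ := h₁ E (fun a ha => hSE (by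
    have := Finset.mem_coe.mp ha
    simp [this]))
  have := isDiscreteValuationRing_OE A E hA
  -- the coefficients of `xE` lie in `OE`
  have hcoeff : ∀ n, xE.coeff n ∈ OE A E := by
    intro n
    rw [mem_OE_iff A E hA]
    have h3 := congrArg (fun z => z.coeff n) hx
    simp only [coeffMap_coeff] at h3
    have h4 : ((xE.coeff n : E) : L) = ((y.coeff n : A) : L) := h3
    rw [h4]
    exact (y.coeff n).2
  let yE : LaurentSeries (OE A E) :=
    { coeff := fun n => ⟨xE.coeff n, hcoeff n⟩
      isPWO_support' := xE.isPWO_support.mono fun n hn => by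
        simp only [Function.mem_support, ne_eq] at hn ⊢
        intro h0
        exact hn (Subtype.ext h0) }
  have hyE : serEmb (OE A E) E yE = xE := by
    ext n
    rfl
  have hgauss : xE ∈ gaussRing (OE A E) E := by
    rw [← hyE]
    exact serEmb_mem_gaussRing yE
  -- the DVR statement
  have hres := gaussRed_mem_full_of_analytic M (embE E ι)
    (fun _ B hD => exists_unit_OE_twist A E M ι hz hzE hD B)
    (fun _ hD => isUnit_natCast_OE A E hA (fun h => hℓM (h.trans hD)))
    (CuspExp.analyticFacts M) ⟨xE, hxE⟩ hgauss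
  have hred : gaussRed (OE A E) E ⟨xE, hgauss⟩ = serRed (OE A E) yE := by
    have : (⟨xE, hgauss⟩ : gaussRing (OE A E) E) =
        ⟨serEmb (OE A E) E yE, serEmb_mem_gaussRing yE⟩ := Subtype.ext hyE.symm
    rw [this, gaussRed_serEmb]
  rw [hred] at hres
  -- transport to `A`
  have hloc : IsLocalHom (oeToA A E) := isLocalHom_oeToA A hA E
  have hyy : y = coeffMap (oeToA A E) yE := by
    ext n
    have h3 := congrArg (fun z => z.coeff n) hx
    simp only [coeffMap_coeff] at h3
    have h4 : ((xE.coeff n : E) : L) = ((y.coeff n : A) : L) := h3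
    rw [coeffMap_coeff]
    exact h4.symm
  have hcomp : (IsLocalRing.residue A).comp (oeToA A E) =
      (IsLocalRing.ResidueField.map (oeToA A E)).comp (IsLocalRing.residue (OE A E)) := by
    ext a
    rfl
  have hfinal : coeffMap (IsLocalRing.residue A) y =
      coeffMap (IsLocalRing.ResidueField.map (oeToA A E)) (serRed (OE A E) yE) := by
    rw [hyy, coeffMap_coeffMap, coeffMap_congr hcomp, ← coeffMap_coeffMap]
    rfl
  rw [hfinal]
  exact coeffMap_mem_fullC _ M hres

end ResA

section Final

/-- **RES** in the shape of the board decision 1412: for `A` above `ℓ ∤ N`, the reduction of an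
`A`-integral `q`-series of the function field of level `N` lies in the function field of the
special fibre. -/
theorem res (N : ℕ) [NeZero N] {ℓ : ℕ} [Fact ℓ.Prime] (hℓN : ¬ ℓ ∣ N)
    (A : ValuationSubring (AlgebraicClosure ℚ)) (hA : A.LiesOverPrime ℓ)
    (a : LaurentSeries A) (ha : coeffMap A.subtype a ∈ modularFunctionFieldBar N) :
    coeffMap (IsLocalRing.residue A) a ∈
      modularFunctionFieldFullC (IsLocalRing.ResidueField A) N := by
  haveI := isAlgebraic_Qbar
  obtain ⟨ι, zL, hz⟩ := exists_embedding_zeta N
  exact res_generic A N ι hA hℓN hz a ha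

end Final

end Fermat.Agent.GJ.J1.Res
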