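import Mathlib

/-!
# GATE-J / J1 / M-RES (R2): solving Vandermonde systems inside a subring

`E` a commutative ring (later: a field of Laurent series), `th xs : Fin n → E`.  If
`xs i = ∑ m, c m * th i ^ m` then Cramer's rule gives `det V * c m` as a polynomial expression in
the `th i`, `xs i`; and `(det V)² * c m` as a polynomial expression in the power sums
`∑ i, th i ^ m` and the mixed sums `∑ i, th i ^ m * xs i`.

Mathlib only.
-/

set_option autoImplicit false

noncomputable section

namespace Fermat.Agent.GJ.J1.Res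

open Matrix Finset

section Cramer

variable {E : Type*} [CommRing E] {ι : Type*} [Fintype ι] [DecidableEq ι]

/-- Cramer's rule inside a subring: if `M` has entries in `S` and `M c = y` with `y` in `S`, then
`det M * c m ∈ S`. -/
theorem det_mul_mem_of_mulVec_mem (S : Subring E) (M : Matrix ι ι E) (hM : ∀ i j, M i j ∈ S)
    (c y : ι → E) (hy : ∀ i, y i ∈ S) (h : M.mulVec c = y) (m : ι) : M.det * c m ∈ S := by
  -- the adjugate has entries in `S`
  have hadj : ∀ i j, M.adjugate i j ∈ S := by
    intro i j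
    set M' : Matrix ι ι S := fun i j => ⟨M i j, hM i j⟩ with hM'
    have h1 : S.subtype.mapMatrix M' = M := by
      ext a b
      simp [hM']
    have h2 := RingHom.map_adjugate S.subtype M'
    rw [h1] at h2
    rw [← h2]
    simp
  have h3 : M.adjugate.mulVec y = M.det • c := by
    rw [← h, Matrix.mulVec_mulVec, Matrix.adjugate_mul, Matrix.smul_mulVec, Matrix.one_mulVec]
  have h4 : M.det * c m = (M.adjugate.mulVec y) m := by
    rw [h3]
    rfl
  rw [h4]
  exact sum_mem fun j _ => mul_mem (hadj m j) (hy j)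

end Cramer

section Units

variable {E : Type*} [CommRing E]

/-- a finite product of units of a subring is a unit of the subring -/
theorem exists_mul_eq_one_prod (R : Subring E) {α : Type*} (s : Finset α) (f : α → E)
    (h : ∀ a ∈ s, ∃ u ∈ R, f a * u = 1) : ∃ U ∈ R, (∏ a ∈ s, f a) * U = 1 := by
  classical
  induction s using Finset.induction_on with
  | empty => exact ⟨1, one_mem _, by simp⟩
  | insert a s ha ih =>
    obtain ⟨u, hu, hfu⟩ := h a (Finset.mem_insert_self a s)
    obtain ⟨U, hU, hfU⟩ := ih fun b hb => h b (Finset.mem_insert_of_mem hb)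
    refine ⟨u * U, mul_mem hu hU, ?_⟩
    rw [Finset.prod_insert ha, mul_mul_mul_comm, hfu, hfU, mul_one]

end Units

section Vandermonde

variable {E : Type*} [CommRing E] {n : ℕ}

/-- the Vandermonde determinant is a unit of `R` if all differences are -/
theorem exists_mul_eq_one_vandermonde_det (R : Subring E) (th : Fin n → E)
    (h : ∀ i j, i ≠ j → ∃ u ∈ R, (th j - th i) * u = 1) :
    ∃ U ∈ R, (∏ i : Fin n, ∏ j ∈ Finset.Ioi i, (th j - th i)) * U = 1 :=
  exists_mul_eq_one_prod R _ _ fun i _ =>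
    exists_mul_eq_one_prod R _ _ fun j hj => h i j (ne_of_lt (Finset.mem_Ioi.mp hj))

/-- the system `xs i = ∑ m, c m * th i ^ m` in matrix form -/
theorem vandermonde_mulVec_eq (th xs c : Fin n → E)
    (hc : ∀ i, xs i = ∑ m : Fin n, c m * th i ^ (m : ℕ)) :
    (Matrix.vandermonde th).mulVec c = xs := by
  funext i
  rw [hc i]
  simp only [Matrix.mulVec, dotProduct, Matrix.vandermonde_apply]
  exact Finset.sum_congr rfl fun m _ => mul_comm _ _

/-- **Integrality of the Vandermonde solution.** -/
theorem vandermonde_det_mul_mem (R : Subring E) (th xs c : Fin n → E) (hth : ∀ i, th i ∈ R)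
    (hxs : ∀ i, xs i ∈ R) (hc : ∀ i, xs i = ∑ m : Fin n, c m * th i ^ (m : ℕ)) (m : Fin n) :
    (∏ i : Fin n, ∏ j ∈ Finset.Ioi i, (th j - th i)) * c m ∈ R := by
  rw [← Matrix.det_vandermonde]
  exact det_mul_mem_of_mulVec_mem R (Matrix.vandermonde th)
    (fun i j => by rw [Matrix.vandermonde_apply]; exact pow_mem (hth i) _) c xs hxs
    (vandermonde_mulVec_eq th xs c hc) m

/-- **Rationality of the Vandermonde solution**: if the power sums of the `th i` and the mixed
sums `∑ i, th i ^ m * xs i` lie in a subring `K0`, so does `(det V)² * c m`. -/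
theorem vandermonde_det_sq_mul_mem (K0 : Subring E) (th xs c : Fin n → E)
    (hp : ∀ m : ℕ, ∑ i : Fin n, th i ^ m ∈ K0)
    (hs : ∀ m : ℕ, ∑ i : Fin n, th i ^ m * xs i ∈ K0)
    (hc : ∀ i, xs i = ∑ m : Fin n, c m * th i ^ (m : ℕ)) (m : Fin n) :
    (∏ i : Fin n, ∏ j ∈ Finset.Ioi i, (th j - th i)) ^ 2 * c m ∈ K0 := by
  set V := Matrix.vandermonde th with hV
  have hVc : V.mulVec c = xs := vandermonde_mulVec_eq th xs c hc
  have hT : ∀ a b, (Vᵀ * V) a b = ∑ i : Fin n, th i ^ ((a : ℕ) + (b : ℕ)) := by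
    intro a b
    simp only [Matrix.mul_apply, Matrix.transpose_apply, hV, Matrix.vandermonde_apply]
    exact Finset.sum_congr rfl fun i _ => (pow_add _ _ _).symm
  have hy : ∀ a, (Vᵀ.mulVec xs) a = ∑ i : Fin n, th i ^ (a : ℕ) * xs i := by
    intro a
    simp only [Matrix.mulVec, dotProduct, Matrix.transpose_apply, hV, Matrix.vandermonde_apply]
  have hsys : (Vᵀ * V).mulVec c = Vᵀ.mulVec xs := by
    rw [← Matrix.mulVec_mulVec, hVc]
  have hdet : (Vᵀ * V).det = (∏ i : Fin n, ∏ j ∈ Finset.Ioi i, (th j - th i)) ^ 2 := by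
    rw [Matrix.det_mul, Matrix.det_transpose, hV, Matrix.det_vandermonde, sq]
  rw [← hdet]
  exact det_mul_mem_of_mulVec_mem K0 (Vᵀ * V) (fun a b => by rw [hT]; exact hp _) c _
    (fun a => by rw [hy]; exact hs _) hsys m

/-- the square of the Vandermonde determinant is a polynomial in the power sums -/
theorem vandermonde_det_sq_mem (K0 : Subring E) (th : Fin n → E)
    (hp : ∀ m : ℕ, ∑ i : Fin n, th i ^ m ∈ K0) :
    (∏ i : Fin n, ∏ j ∈ Finset.Ioi i, (th j - th i)) ^ 2 ∈ K0 := by
  set V := Matrix.vandermonde th with hV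
  have hT : ∀ a b, (Vᵀ * V) a b = ∑ i : Fin n, th i ^ ((a : ℕ) + (b : ℕ)) := by
    intro a b
    simp only [Matrix.mul_apply, Matrix.transpose_apply, hV, Matrix.vandermonde_apply]
    exact Finset.sum_congr rfl fun i _ => (pow_add _ _ _).symm
  have hdet : (Vᵀ * V).det = (∏ i : Fin n, ∏ j ∈ Finset.Ioi i, (th j - th i)) ^ 2 := by
    rw [Matrix.det_mul, Matrix.det_transpose, hV, Matrix.det_vandermonde, sq]
  rw [← hdet]
  set T' : Matrix (Fin n) (Fin n) K0 := fun a b => ⟨(Vᵀ * V) a b, by rw [hT]; exact hp _⟩ with hT'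
  have h1 : K0.subtype.mapMatrix T' = Vᵀ * V := by
    ext a b
    simp [hT']
  rw [← h1, ← RingHom.map_det]
  exact (T'.det).2

end Vandermonde

section Field

variable {E : Type*} [Field E] {n : ℕ}

theorem vandermonde_det_ne_zero {th : Fin n → E} (hth : Function.Injective th) :
    (∏ i : Fin n, ∏ j ∈ Finset.Ioi i, (th j - th i)) ≠ 0 := by
  rw [← Matrix.det_vandermonde]
  exact Matrix.det_vandermonde_ne_zero_iff.mpr hth

/-- existence of the interpolating coefficients -/
theorem exists_vandermonde_coeffs {th : Fin n → E} (hth : Function.Injective th)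
    (xs : Fin n → E) : ∃ c : Fin n → E, ∀ i, xs i = ∑ m : Fin n, c m * th i ^ (m : ℕ) := by
  have hdet : IsUnit (Matrix.vandermonde th).det :=
    isUnit_iff_ne_zero.mpr (Matrix.det_vandermonde_ne_zero_iff.mpr hth)
  refine ⟨(Matrix.vandermonde th)⁻¹.mulVec xs, fun i => ?_⟩
  have h1 : (Matrix.vandermonde th).mulVec ((Matrix.vandermonde th)⁻¹.mulVec xs) = xs := by
    rw [Matrix.mulVec_mulVec, Matrix.mul_nonsing_inv _ hdet, Matrix.one_mulVec]
  have h2 := congrFun h1 i
  rw [← h2]
  simp only [Matrix.mulVec, dotProduct, Matrix.vandermonde_apply]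
  exact Finset.sum_congr rfl fun m _ => mul_comm _ _

/-- uniqueness of the interpolating coefficients -/
theorem vandermonde_coeffs_eq_zero {th : Fin n → E} (hth : Function.Injective th)
    (c : Fin n → E) (hc : ∀ i, ∑ m : Fin n, c m * th i ^ (m : ℕ) = 0) : c = 0 := by
  have h1 : (Matrix.vandermonde th).mulVec c = 0 := by
    rw [vandermonde_mulVec_eq th 0 c (fun i => by rw [hc i]; rfl)]
  exact Matrix.eq_zero_of_mulVec_eq_zero (Matrix.det_vandermonde_ne_zero_iff.mpr hth) h1

end Field

end Fermat.Agent.GJ.J1.Res
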