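import Fermat.Agent.S28.CuspCore
import Fermat.Agent.S28.CoreBridge
import Fermat.Agent.GJ.J1.Res.GaussTransfer
import Fermat.Agent.GJ.J1.Res.Vandermonde
import Fermat.Agent.GJ.J1.Res.RatSub

/-!
# GATE-J / J1 / M-RES (R4): the orthonormal basis `1, θ, …, θ^(n-1)` at the DVR level

`O` a DVR, `k = Frac O`, `D : S28.CuspDatum k N O` with cusp embeddings `σ i`.  For `θ` in the big
field whose expansions `σ i θ` are pairwise distinct modulo the maximal ideal (differences are
units of the Gauss ring):

* `exists_coeffs` : every `x` is `∑ c m θ^m` with `c m` rational in `j` (all expansions at once);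
* `coeffs_mem_gaussRing` : if `x` is Gauss-integral so are the `c m`;
* `gaussRed_mem_full` : the reduction of a Gauss-integral element of the big field lies in
  `modularFunctionFieldFullC κ N` (**RES**).
-/

set_option autoImplicit false
set_option linter.unusedSectionVars false

noncomputable section

namespace Fermat.Agent.GJ.J1.Res

open Polynomial ModularCurve Fermat.Agent.S28

section

variable {k : Type} [Field k] {N : ℕ} [NeZero N] {O : Type} [CommRing O] [IsDomain O]
  [IsDiscreteValuationRing O] [Algebra O k] [IsFractionRing O k]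

local instance (priority := 2000) bigFieldModuleRes : Module k (bigField k N) := Algebra.toModule

/-- all the reduction maps of the finite chart have the same kernel -/
theorem cuspDatum_ker_eq (D : CuspDatum k N O) (i j : D.I) :
    RingHom.ker (D.chartHypFin.rho i) = RingHom.ker (D.chartHypFin.rho j) :=
  D.chartHypFin.rho_ker_eq N (NeZero.ne N) D.cI D.cI_dvd D.i₀ D.cI_eq_iff D.hunits i j

/-- **Gauss transfer for a cusp datum**: a Gauss-integral element of the big field has
Gauss-integral expansions at all cusps. -/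
theorem sigma_mem_gaussRing_of_mem (D : CuspDatum k N O) (x : bigField k N)
    (hx : (x : LaurentSeries k) ∈ gaussRing O k) (i : D.I) : D.σ i x ∈ gaussRing O k := by
  refine gauss_transfer D.chartHypFin (cuspDatum_ker_eq D) x D.i₀ i ?_
  rw [D.σ_i₀]
  exact CoreBridge.qExpand_mem_gaussRing N hx

/-- conversely, one Gauss-integral cusp expansion forces all of them -/
theorem sigma_mem_gaussRing_of_sigma_mem (D : CuspDatum k N O) (x : bigField k N) (i j : D.I)
    (hx : D.σ i x ∈ gaussRing O k) : D.σ j x ∈ gaussRing O k :=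
  gauss_transfer D.chartHypFin (cuspDatum_ker_eq D) x i j hx

/-- the expansions reduce to zero simultaneously -/
theorem gaussRed_sigma_eq_zero_of (D : CuspDatum k N O) (x : bigField k N) (i j : D.I)
    (hxi : D.σ i x ∈ gaussRing O k) (hxj : D.σ j x ∈ gaussRing O k)
    (h0 : gaussRed O k ⟨D.σ i x, hxi⟩ = 0) : gaussRed O k ⟨D.σ j x, hxj⟩ = 0 :=
  gaussRed_sigma_eq_zero D.chartHypFin (cuspDatum_ker_eq D) x i j hxi hxj h0

/-- traces are rational in `j` -/
theorem sum_sigma_mem_ratSub (D : CuspDatum k N O) (y : bigField k N) :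
    ∑ i, D.σ i y ∈ ratSub (qExpand k N (jqModC k)) := by
  have hcard : 0 < (Finset.univ : Finset D.I).card :=
    Finset.card_pos.mpr ⟨D.i₀, Finset.mem_univ _⟩
  have h1 := mem_ratSub_of_symrat (evalκ_qExpand_jqModC_injective k N)
    (D.symrat y ((Finset.univ : Finset D.I).card - 1))
  rw [Polynomial.prod_X_sub_C_coeff_card_pred _ _ hcard] at h1
  have := neg_mem h1
  rwa [neg_neg] at this

end

section Main

variable {k : Type} [Field k] {N : ℕ} [NeZero N] {O : Type} [CommRing O] [IsDomain O]
  [IsDiscreteValuationRing O] [Algebra O k] [IsFractionRing O k]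

local instance (priority := 2000) bigFieldModuleRes' : Module k (bigField k N) := Algebra.toModule

/-- **Decomposition along the powers of `θ`**, simultaneously at all cusps, with coefficients
rational in `j`. -/
theorem exists_coeffs (D : CuspDatum k N O) (θ : bigField k N)
    (hdist : ∀ i i', i ≠ i' → D.σ i θ ≠ D.σ i' θ) (x : bigField k N) :
    ∃ c : Fin (Fintype.card D.I) → LaurentSeries k,
      (∀ m, c m ∈ ratSub (qExpand k N (jqModC k))) ∧
      ∀ i, D.σ i x = ∑ m, c m * D.σ i θ ^ (m : ℕ) := by
  classical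
  set n := Fintype.card D.I with hn
  set e : D.I ≃ Fin n := Fintype.equivFin D.I with he
  set th : Fin n → LaurentSeries k := fun a => D.σ (e.symm a) θ with hth
  set xs : Fin n → LaurentSeries k := fun a => D.σ (e.symm a) x with hxs
  have hinj : Function.Injective th := by
    intro a b hab
    by_contra hne
    exact hdist (e.symm a) (e.symm b) (fun h => hne (e.symm.injective h)) hab
  obtain ⟨c, hc⟩ := exists_vandermonde_coeffs hinj xs
  have hsum : ∀ f : D.I → LaurentSeries k, ∑ a : Fin n, f (e.symm a) = ∑ i, f i :=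
    fun f => Equiv.sum_comp e.symm f
  have hp : ∀ m : ℕ, ∑ a : Fin n, th a ^ m ∈ ratSub (qExpand k N (jqModC k)) := by
    intro m
    have h1 := sum_sigma_mem_ratSub D (θ ^ m)
    have h2 : ∑ a : Fin n, th a ^ m = ∑ i, D.σ i (θ ^ m) := by
      rw [← hsum fun i => D.σ i (θ ^ m)]
      exact Finset.sum_congr rfl fun a _ => by rw [hth, map_pow]
    rw [h2]
    exact h1
  have hs : ∀ m : ℕ, ∑ a : Fin n, th a ^ m * xs a ∈ ratSub (qExpand k N (jqModC k)) := by
    intro m
    have h1 := sum_sigma_mem_ratSub D (θ ^ m * x)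
    have h2 : ∑ a : Fin n, th a ^ m * xs a = ∑ i, D.σ i (θ ^ m * x) := by
      rw [← hsum fun i => D.σ i (θ ^ m * x)]
      exact Finset.sum_congr rfl fun a _ => by rw [hth, hxs, map_mul, map_pow]
    rw [h2]
    exact h1
  have hdet0 := vandermonde_det_ne_zero hinj
  have hdet2 := vandermonde_det_sq_mem (ratSub (qExpand k N (jqModC k))) th hp
  refine ⟨c, fun m => ?_, fun i => ?_⟩
  · exact mem_ratSub_of_mul_mem hdet2 (pow_ne_zero 2 hdet0)
      (vandermonde_det_sq_mul_mem (ratSub (qExpand k N (jqModC k))) th xs c hp hs hc m)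
  · have := hc (e i)
    simpa [hth, hxs] using this

/-- **Integrality of the coefficients**: if `x` is Gauss-integral and the expansions of `θ` are
Gauss-integral with unit differences, then the coefficients of `x` along `θ^m` are
Gauss-integral. -/
theorem coeffs_mem_gaussRing (D : CuspDatum k N O) (θ : bigField k N)
    (hθ : (θ : LaurentSeries k) ∈ gaussRing O k)
    (hunit : ∀ i i', i ≠ i' → ∃ u ∈ gaussRing O k, (D.σ i θ - D.σ i' θ) * u = 1)
    (x : bigField k N) (hx : (x : LaurentSeries k) ∈ gaussRing O k)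
    (c : Fin (Fintype.card D.I) → LaurentSeries k)
    (hc : ∀ i, D.σ i x = ∑ m, c m * D.σ i θ ^ (m : ℕ)) (m : Fin (Fintype.card D.I)) :
    c m ∈ gaussRing O k := by
  classical
  set e : D.I ≃ Fin (Fintype.card D.I) := Fintype.equivFin D.I with he
  set th : Fin (Fintype.card D.I) → LaurentSeries k := fun a => D.σ (e.symm a) θ with hth
  set xs : Fin (Fintype.card D.I) → LaurentSeries k := fun a => D.σ (e.symm a) x with hxs
  have hthm : ∀ a, th a ∈ gaussRing O k := fun a => sigma_mem_gaussRing_of_mem D θ hθ _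
  have hxsm : ∀ a, xs a ∈ gaussRing O k := fun a => sigma_mem_gaussRing_of_mem D x hx _
  have hc' : ∀ a, xs a = ∑ m : Fin (Fintype.card D.I), c m * th a ^ (m : ℕ) :=
    fun a => hc (e.symm a)
  have h1 := vandermonde_det_mul_mem (gaussRing O k) th xs c hthm hxsm hc' m
  obtain ⟨U, hU, hdU⟩ := exists_mul_eq_one_vandermonde_det (gaussRing O k) th fun a b hab =>
    hunit (e.symm b) (e.symm a) (fun h => hab (e.symm.injective h).symm)
  have : c m = U * ((∏ i : Fin (Fintype.card D.I), ∏ j ∈ Finset.Ioi i, (th j - th i)) * c m) := by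
    rw [← mul_assoc, mul_comm U, hdU, one_mul]
  rw [this]
  exact mul_mem hU h1

/-- reductions of Gauss-integral series rational in `j(t^N)` come from `κ(j)` -/
theorem exists_gaussRed_eq_qExpand {c : LaurentSeries k} (hc : c ∈ gaussRing O k)
    (hcr : c ∈ ratSub (qExpand k N (jqModC k))) :
    ∃ r ∈ modularFunctionFieldFullC (IsLocalRing.ResidueField O) N,
      gaussRed O k ⟨c, hc⟩ = qExpand (IsLocalRing.ResidueField O) N r := by
  set κ := IsLocalRing.ResidueField O with hκ
  have hG := qExpand_jqModC_mem_gaussRing O k N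
  have hGred := gaussRed_qExpand_jqModC O k N hG
  have htr : Function.Injective (evalκ (gaussRed O k ⟨qExpand k N (jqModC k), hG⟩)) := by
    rw [hGred]
    exact evalκ_qExpand_jqModC_injective _ N
  obtain ⟨P, Q, hQ, hPQ⟩ := gaussRed_mem_of_mem_ratSub hG htr hc hcr
  rw [hGred, evalκ_qExpand N (jqModC κ)] at hQ hPQ
  simp only [RingHom.comp_apply] at hQ hPQ
  have hQ0 : evalκ (jqModC κ) Q ≠ 0 := fun h0 => hQ (by rw [h0, map_zero])
  have hmem : ∀ R : κ[X], evalκ (jqModC κ) R ∈ modularFunctionFieldFullC κ N := by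
    intro R
    rw [evalκ_eq_aeval]
    have h1 : Polynomial.aeval (jqModC κ) R ∈ Algebra.adjoin κ {jqModC κ} :=
      Polynomial.aeval_mem_adjoin_singleton κ (jqModC κ)
    have h2 : Algebra.adjoin κ {jqModC κ} ≤ (modularFunctionFieldFullC κ N).toSubalgebra :=
      Algebra.adjoin_le (Set.singleton_subset_iff.mpr (jqModC_mem_full κ N))
    exact h2 h1
  refine ⟨evalκ (jqModC κ) P / evalκ (jqModC κ) Q, div_mem (hmem P) (hmem Q), ?_⟩
  rw [map_div₀, eq_div_iff hQ]
  exact hPQ

/-- **RES at the DVR level**: the reduction of a Gauss-integral element of the big field lies in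
the field `κ(j(q^d) : d ∣ N)`, provided some `θ` of the big field with reduction in that field has
cusp expansions which are pairwise distinct modulo the maximal ideal. -/
theorem gaussRed_mem_full (D : CuspDatum k N O) (θ : bigField k N)
    (hθ : (θ : LaurentSeries k) ∈ gaussRing O k)
    (hθred : gaussRed O k ⟨θ, hθ⟩ ∈ modularFunctionFieldFullC (IsLocalRing.ResidueField O) N)
    (hunit : ∀ i i', i ≠ i' → ∃ u ∈ gaussRing O k, (D.σ i θ - D.σ i' θ) * u = 1)
    (x : bigField k N) (hx : (x : LaurentSeries k) ∈ gaussRing O k) :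
    gaussRed O k ⟨x, hx⟩ ∈ modularFunctionFieldFullC (IsLocalRing.ResidueField O) N := by
  set κ := IsLocalRing.ResidueField O with hκ
  have hdist : ∀ i i', i ≠ i' → D.σ i θ ≠ D.σ i' θ := by
    intro i i' hii' heq
    obtain ⟨u, -, hu⟩ := hunit i i' hii'
    rw [heq, sub_self, zero_mul] at hu
    exact zero_ne_one hu
  obtain ⟨c, hcr, hc⟩ := exists_coeffs D θ hdist x
  have hcm := coeffs_mem_gaussRing D θ hθ hunit x hx c hc
  choose r hr hrc using fun m => exists_gaussRed_eq_qExpand (N := N) (hcm m) (hcr m)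
  -- the identity at the cusp `∞`, inside the Gauss ring
  have hθq : qExpand k N (θ : LaurentSeries k) ∈ gaussRing O k :=
    CoreBridge.qExpand_mem_gaussRing N hθ
  have hxq : qExpand k N (x : LaurentSeries k) ∈ gaussRing O k :=
    CoreBridge.qExpand_mem_gaussRing N hx
  have hid : (⟨qExpand k N (x : LaurentSeries k), hxq⟩ : gaussRing O k) =
      ∑ m, (⟨c m, hcm m⟩ : gaussRing O k) * ⟨qExpand k N (θ : LaurentSeries k), hθq⟩ ^ (m : ℕ) := by
    have h1 := hc D.i₀
    rw [D.σ_i₀, D.σ_i₀] at h1
    refine Subtype.ext (h1.trans ?_)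
    simp
  have hred := congrArg (gaussRed O k) hid
  rw [map_sum, CoreBridge.gaussRed_qExpand N hx] at hred
  have hterm : ∀ m : Fin (Fintype.card D.I),
      gaussRed O k ((⟨c m, hcm m⟩ : gaussRing O k) *
        ⟨qExpand k N (θ : LaurentSeries k), hθq⟩ ^ (m : ℕ)) =
      qExpand κ N (r m * gaussRed O k ⟨θ, hθ⟩ ^ (m : ℕ)) := by
    intro m
    rw [map_mul, map_pow, CoreBridge.gaussRed_qExpand N hθ, hrc m, map_mul, map_pow]
  rw [Finset.sum_congr rfl fun m _ => hterm m, ← map_sum] at hred
  have hfin := qExpand_injective (R := κ) N hred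
  rw [hfin]
  exact sum_mem fun m _ => mul_mem (hr m) (pow_mem hθred _)

end Main

end Fermat.Agent.GJ.J1.Res
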